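/-
S18 / Program J / leaf C1, node `gramDet_unit` of the C1 sub-skeleton (helper49, `C1Skel.lean`):
an orthonormal `K(x)`-family of `[F : K(x)]` elements has a Gram determinant which is a unit of
the Gauss valuation ring `O`.

Generic part (`L ⊆ F` fields, `O` a valuation ring of `F`): an orthonormal family is linearly
independent, coordinates / traces / discriminants with respect to an orthonormal basis are
integral, and the discriminant of an orthonormal basis is a unit as soon as one integral family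
has a unit discriminant.  (helper90)
-/
import Fermat.Agent.S18.H74.CoreDefs

set_option autoImplicit false

open AlgebraicCurve IntermediateField Fermat.Agent.S18.H74

noncomputable section

namespace Fermat.Agent.S18.H90

section Generic

variable {L : Type*} [Field L] {F : Type*} [Field F] [Algebra L F] (O : ValuationSubring F)
  {ι : Type*} [Fintype ι]

/-- Orthonormality of a finite family over `(L, O ∩ L)`. -/
def IsOrtho (θ : ι → F) : Prop :=
  ∀ r : ι → L, (∑ i, algebraMap L F (r i) * θ i) ∈ O ↔ ∀ i, algebraMap L F (r i) ∈ O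

variable {O}

theorem IsOrtho.mem [DecidableEq ι] {θ : ι → F} (h : IsOrtho (L := L) O θ) (i : ι) : θ i ∈ O := by
  have h1 := (h (Pi.single i 1)).2 (fun j => by
    by_cases hj : j = i
    · subst hj
      simp only [Pi.single_eq_same, map_one]
      exact O.one_mem
    · simp only [Pi.single_eq_of_ne hj, map_zero]
      exact O.zero_mem)
  have h2 : (∑ j, algebraMap L F ((Pi.single i 1 : ι → L) j) * θ j) = θ i := by
    rw [Finset.sum_eq_single i]
    · simp
    · intro j _ hj
      simp [Pi.single_eq_of_ne hj]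
    · intro hi
      exact absurd (Finset.mem_univ i) hi
  rwa [h2] at h1

theorem IsOrtho.linearIndependent {θ : ι → F} (h : IsOrtho (L := L) O θ)
    (hc : ∃ c : L, algebraMap L F c ∉ O) : LinearIndependent L θ := by
  classical
  obtain ⟨c, hc⟩ := hc
  rw [Fintype.linearIndependent_iff]
  intro g hg i
  by_contra hgi
  have h0 : (∑ j, algebraMap L F (c * (g i)⁻¹ * g j) * θ j) = 0 := by
    have : (∑ j, algebraMap L F (c * (g i)⁻¹ * g j) * θ j) =
        algebraMap L F (c * (g i)⁻¹) * ∑ j, g j • θ j := by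
      rw [Finset.mul_sum]
      refine Finset.sum_congr rfl fun j _ => ?_
      rw [Algebra.smul_def, map_mul, mul_assoc]
    rw [this, hg, mul_zero]
  have h1 := (h (fun j => c * (g i)⁻¹ * g j)).1 (by rw [h0]; exact O.zero_mem) i
  rw [inv_mul_cancel_right₀ hgi] at h1
  exact hc h1

theorem IsOrtho.repr_mem (B : Module.Basis ι L F) (h : IsOrtho (L := L) O ⇑B) {f : F}
    (hf : f ∈ O) (i : ι) : algebraMap L F (B.repr f i) ∈ O := by
  refine (h (fun i => B.repr f i)).1 ?_ i
  have : (∑ i, algebraMap L F (B.repr f i) * B i) = f := by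
    conv_rhs => rw [← B.sum_repr f]
    refine Finset.sum_congr rfl fun i _ => ?_
    rw [Algebra.smul_def]
  rwa [this]

theorem IsOrtho.trace_mem [DecidableEq ι] (B : Module.Basis ι L F) (h : IsOrtho (L := L) O ⇑B)
    {f : F} (hf : f ∈ O) : algebraMap L F (Algebra.trace L F f) ∈ O := by
  rw [Algebra.trace_eq_matrix_trace B, Matrix.trace, map_sum]
  refine O.toSubring.sum_mem fun i _ => ?_
  rw [Matrix.diag_apply, Algebra.leftMulMatrix_eq_repr_mul]
  exact h.repr_mem B (O.mul_mem _ _ hf (h.mem i)) i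

theorem det_mem [DecidableEq ι] (M : Matrix ι ι L) (hM : ∀ i j, algebraMap L F (M i j) ∈ O) :
    algebraMap L F M.det ∈ O := by
  let M' : Matrix ι ι O.toSubring := fun i j => ⟨algebraMap L F (M i j), hM i j⟩
  have hM' : (algebraMap L F).mapMatrix M = O.toSubring.subtype.mapMatrix M' := by
    ext i j
    rfl
  rw [RingHom.map_det, hM', ← RingHom.map_det]
  exact (M'.det).2

theorem IsOrtho.discr_mem [DecidableEq ι] (B : Module.Basis ι L F) (h : IsOrtho (L := L) O ⇑B) :
    algebraMap L F (Algebra.discr L ⇑B) ∈ O := by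
  rw [Algebra.discr_def]
  refine det_mem _ fun i j => ?_
  rw [Algebra.traceMatrix_apply, Algebra.traceForm_apply]
  exact h.trace_mem B (O.mul_mem _ _ (h.mem i) (h.mem j))

theorem IsOrtho.discr_inv_mem [DecidableEq ι] (B : Module.Basis ι L F)
    (h : IsOrtho (L := L) O ⇑B) (θ0 : ι → F) (h0 : ∀ j, θ0 j ∈ O)
    (hne : Algebra.discr L θ0 ≠ 0) (hd0 : (algebraMap L F (Algebra.discr L θ0))⁻¹ ∈ O) :
    (algebraMap L F (Algebra.discr L ⇑B))⁻¹ ∈ O := by
  set Q : Matrix ι ι L := fun i j => B.repr (θ0 j) i with hQ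
  have hθ0 : θ0 = Matrix.vecMul (⇑B) (Q.map (algebraMap L F)) := by
    funext j
    simp only [Matrix.vecMul, dotProduct, Matrix.map_apply]
    conv_lhs => rw [← B.sum_repr (θ0 j)]
    refine Finset.sum_congr rfl fun i _ => ?_
    rw [Algebra.smul_def, mul_comm]
  have key := Algebra.discr_of_matrix_vecMul (⇑B) Q
  rw [← hθ0] at key
  have hQdet : algebraMap L F Q.det ∈ O := det_mem Q fun i j => h.repr_mem B (h0 j) i
  have hB : Algebra.discr L ⇑B ≠ 0 := by
    intro hz
    rw [hz, mul_zero] at key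
    exact hne key
  have hq : Q.det ≠ 0 := by
    intro hz
    rw [hz] at key
    simp at key
    exact hne key
  have e : (algebraMap L F (Algebra.discr L ⇑B))⁻¹ =
      algebraMap L F Q.det ^ 2 * (algebraMap L F (Algebra.discr L θ0))⁻¹ := by
    rw [key, map_mul, map_pow]
    have h1 : algebraMap L F Q.det ≠ 0 := (map_ne_zero _).2 hq
    have h2 : algebraMap L F (Algebra.discr L ⇑B) ≠ 0 := (map_ne_zero _).2 hB
    field_simp
  rw [e]
  exact O.mul_mem _ _ (pow_mem hQdet 2) hd0

end Generic

variable {K : Type*} [Field K] {A : ValuationSubring K} {F : Type*} [Field F] [Algebra K F]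
  {O : ValuationSubring F} {x : F}

theorem gramDet_eq_discr {μ : ℕ} (θ : Fin μ → F) :
    gramDet K F x θ = Algebra.discr K⟮x⟯ θ := by
  rw [Algebra.discr_def]
  unfold gramDet
  congr 1

/-- **`gramDet_unit`** (node of helper49's C1 sub-skeleton, statement verbatim): an orthonormal
`K(x)`-family of `[F : K(x)]` elements has a Gram determinant which is a Gauss unit. -/
theorem gramDet_unit [IsAlgClosed K] [CharZero K] (hA : A ≠ ⊤) (hS : Setup K A F O x)
    (θ : Fin (Module.finrank K⟮x⟯ F) → F)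
    (hon : ∀ r : Fin (Module.finrank K⟮x⟯ F) → K⟮x⟯,
      (∑ i, (r i : F) * θ i) ∈ O ↔ ∀ i, (r i : F) ∈ O) :
    ((gramDet K F x θ : K⟮x⟯) : F) ∈ O ∧ ((gramDet K F x θ : K⟮x⟯) : F)⁻¹ ∈ O := by
  classical
  have := hS.finite
  obtain ⟨θ0, hon0, hd0⟩ := hS.basis
  have hθ : IsOrtho (L := K⟮x⟯) O θ := hon
  have hθ0 : IsOrtho (L := K⟮x⟯) O θ0 := hon0
  -- a constant outside `O`
  have hc : ∃ c : K⟮x⟯, algebraMap K⟮x⟯ F c ∉ O := by
    have : ∃ a : K, a ∉ A := by
      by_contra hcon
      exact hA (eq_top_iff.2 fun a _ => by_contra fun ha => hcon ⟨a, ha⟩)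
    obtain ⟨a, ha⟩ := this
    refine ⟨algebraMap K K⟮x⟯ a, fun hmem => ha ((hS.mem_iff a).1 ?_)⟩
    rwa [← IsScalarTower.algebraMap_apply] at hmem
  have hcard : Fintype.card (Fin (Module.finrank K⟮x⟯ F)) = Module.finrank K⟮x⟯ F :=
    Fintype.card_fin _
  let B := basisOfLinearIndependentOfCardEqFinrank' θ (hθ.linearIndependent hc) hcard
  let B0 := basisOfLinearIndependentOfCardEqFinrank' θ0 (hθ0.linearIndependent hc) hcard
  have hB : ⇑B = θ := coe_basisOfLinearIndependentOfCardEqFinrank' _ _ _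
  have hB0 : ⇑B0 = θ0 := coe_basisOfLinearIndependentOfCardEqFinrank' _ _ _
  have : CharZero K⟮x⟯ := charZero_of_injective_algebraMap (algebraMap K K⟮x⟯).injective
  have hne : Algebra.discr K⟮x⟯ θ0 ≠ 0 := by
    rw [← hB0]
    exact Algebra.discr_not_zero_of_basis K⟮x⟯ B0
  have hθB : IsOrtho (L := K⟮x⟯) O ⇑B := by rw [hB]; exact hθ
  have h1 := hθB.discr_mem B
  have h2 := hθB.discr_inv_mem B θ0 (fun j => hθ0.mem j) hne
    (by rw [← gramDet_eq_discr]; exact hd0)
  rw [hB, ← gramDet_eq_discr] at h1 h2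
  exact ⟨h1, h2⟩

end Fermat.Agent.S18.H90
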